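import Mathlib

/-!
# S58 / CH / Count : definitions

`k` a finite field with `q` elements, `E` an arbitrary Weierstrass equation over `k`.
`x (Frob P - P) = numP(x) / (x^q - x)^2` for every point `P = (x, y)` with `x^q ≠ x`, over every extension of `k`.
-/

set_option autoImplicit false

namespace Fermat.Agent.S58.CH.Count

open Polynomial WeierstrassCurve WeierstrassCurve.Affine

variable {k : Type*} [Field k] (E : WeierstrassCurve k)

/-- `f = X³ + a₂ X² + a₄ X + a₆`. -/
noncomputable def fP : k[X] := X ^ 3 + C E.a₂ * X ^ 2 + C E.a₄ * X + C E.a₆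

/-- `g = a₁ X + a₃`. -/
noncomputable def gP : k[X] := C E.a₁ * X + C E.a₃

/-- `t_n = y ^ n + ȳ ^ n`, `ȳ = - y - a₁ x - a₃`. -/
noncomputable def trP : ℕ → k[X]
  | 0 => 2
  | 1 => - gP E
  | (n + 2) => - gP E * trP (n + 1) + fP E * trP n

/-- the numerator of `x (Frob P - P)` (the denominator is `(X ^ q - X) ^ 2`). -/
noncomputable def numP [Fintype k] : k[X] :=
  fP E ^ Fintype.card k + fP E + trP E (Fintype.card k + 1)
    - (C E.a₂ + X ^ Fintype.card k + X) * (X ^ Fintype.card k - X) ^ 2

/-- Frobenius on the `L`-points. -/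
noncomputable def Fr [Fintype k] (L : Type*) [Field L] [DecidableEq L] [Algebra k L] :
    (E⁄L).Point →+ (E⁄L).Point :=
  Point.map (W' := E) (FiniteField.frobeniusAlgHom k L)

end Fermat.Agent.S58.CH.Count
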