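import Fermat.Agent.S58.CH.Count.Defs

/-!
# S58 / CH / Count : `numP` has degree `2 q + 1`
-/

set_option autoImplicit false

namespace Fermat.Agent.S58.CH.Count

open Polynomial

variable {k : Type*} [Field k] (E : WeierstrassCurve k)

theorem natDegree_fP_le : (fP E).natDegree ≤ 3 := by
  unfold fP; compute_degree

theorem natDegree_gP_le : (gP E).natDegree ≤ 1 := by
  unfold gP; compute_degree

/-- `deg t_n ≤ 3 n / 2`.  Two-step induction, `natDegree_add_le`, `natDegree_mul_le`, `natDegree_neg`. -/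
theorem natDegree_trP_le (n : ℕ) : 2 * (trP E n).natDegree ≤ 3 * n := by
  induction n using Nat.twoStepInduction with
  | zero =>
    have h : (trP E 0).natDegree = 0 := by
      show (2 : k[X]).natDegree = 0
      exact natDegree_ofNat 2
    rw [h]
  | one =>
    have h : (trP E 1).natDegree ≤ 1 := by
      show (- gP E).natDegree ≤ 1
      rw [natDegree_neg]
      exact natDegree_gP_le E
    omega
  | more n h0 h1 =>
    have h : (trP E (n + 2)).natDegree
        ≤ max (1 + (trP E (n + 1)).natDegree) (3 + (trP E n).natDegree) := by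
      show (- gP E * trP E (n + 1) + fP E * trP E n).natDegree ≤ _
      refine (natDegree_add_le _ _).trans (max_le_max ?_ ?_)
      · refine natDegree_mul_le.trans (Nat.add_le_add_right ?_ _)
        rw [natDegree_neg]
        exact natDegree_gP_le E
      · exact natDegree_mul_le.trans (Nat.add_le_add_right (natDegree_fP_le E) _)
    rcases le_max_iff.1 h with h | h <;> omega

/-- `numP = X ^ (2 q + 1) + (terms of degree ≤ 2 q)`.
Model: `S52.CH.manin_natDegree_num` (S52/CH/Manin.lean).  `f ^ q = X^(3q) + a₂ X^(2q) + a₄ X^q + a₆`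
(`← FiniteField.expand_card; simp`), hence (by `ring`)
`numP = X^(2q+1) + (X^(q+2) + 2 a₂ X^(q+1) + a₄ X^q - X^3 - a₂ X^2 + a₆ + f + t_(q+1))`;
`q ≥ 2` (`Fintype.one_lt_card`), `deg t_(q+1) ≤ (3 q + 3) / 2 ≤ 2 q`. -/
theorem natDegree_numP [Fintype k] : (numP E).natDegree = 2 * Fintype.card k + 1 := by
  have hq2 : 2 ≤ Fintype.card k := Fintype.one_lt_card
  have hfq : (fP E) ^ Fintype.card k
      = (X ^ Fintype.card k) ^ 3 + C E.a₂ * (X ^ Fintype.card k) ^ 2 + C E.a₄ * X ^ Fintype.card k
        + C E.a₆ := by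
    rw [← FiniteField.expand_card]
    simp [fP]
  have ht := natDegree_trP_le E (Fintype.card k + 1)
  unfold numP
  generalize Fintype.card k = q at *
  have key : fP E ^ q + fP E + trP E (q + 1) - (C E.a₂ + X ^ q + X) * (X ^ q - X) ^ 2
      = X ^ (2 * q + 1) + ((X ^ (q + 2) + 2 * C E.a₂ * X ^ (q + 1) + C E.a₄ * X ^ q - X ^ 3
        - C E.a₂ * X ^ 2 + C E.a₆) + fP E + trP E (q + 1)) := by
    rw [hfq]; ring
  rw [key]
  have hle1 : (X ^ (q + 2) + 2 * C E.a₂ * X ^ (q + 1) + C E.a₄ * X ^ q - X ^ 3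
        - C E.a₂ * X ^ 2 + C E.a₆ : k[X]).natDegree ≤ 2 * q := by
    compute_degree
    all_goals omega
  have hle : ((X ^ (q + 2) + 2 * C E.a₂ * X ^ (q + 1) + C E.a₄ * X ^ q - X ^ 3
        - C E.a₂ * X ^ 2 + C E.a₆) + fP E + trP E (q + 1) : k[X]).natDegree ≤ 2 * q := by
    refine (natDegree_add_le _ _).trans (max_le ((natDegree_add_le _ _).trans (max_le hle1 ?_)) ?_)
    · exact (natDegree_fP_le E).trans (by omega)
    · omega
  rw [natDegree_add_eq_left_of_natDegree_lt, natDegree_X_pow]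
  rw [natDegree_X_pow]
  omega

end Fermat.Agent.S58.CH.Count
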