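import Fermat.Agent.S58.CH.Count.Formula

/-!
# S58 / CH / Count : every solution `x` of `numP(x) = τ (x^q - x)^2` comes from a point of the fibre
-/

set_option autoImplicit false

namespace Fermat.Agent.S58.CH.Count

open Polynomial WeierstrassCurve WeierstrassCurve.Affine

variable {k : Type*} [Field k] [Fintype k] (E : WeierstrassCurve k)
variable {Ω : Type*} [Field Ω] [DecidableEq Ω] [Algebra k Ω]

omit [Fintype k] [DecidableEq Ω] in
/-- every `x` is the `x`-coordinate of a point (`IsAlgClosed.exists_root` of `Y² + (a₁ x + a₃) Y - f(x)`;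
`equation_iff_nonsingular_of_Δ_ne_zero`, `WeierstrassCurve.map_Δ`).  Model: `S41.G.torsCard_exists_point`. -/
theorem exists_point [IsAlgClosed Ω] (hΔ : E.Δ ≠ 0) (x : Ω) : ∃ y : Ω, (E⁄Ω).Nonsingular x y := by
  have hΔ' : (E⁄Ω).Δ ≠ 0 := by
    have h1 : (E⁄Ω).Δ = algebraMap k Ω E.Δ := WeierstrassCurve.map_Δ E (algebraMap k Ω)
    rw [h1]
    exact (map_ne_zero (algebraMap k Ω)).2 hΔ
  obtain ⟨y, hy⟩ := IsAlgClosed.exists_root
    (C (1 : Ω) * X ^ 2 + C ((E⁄Ω).a₁ * x + (E⁄Ω).a₃) * X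
      + C (-(x ^ 3 + (E⁄Ω).a₂ * x ^ 2 + (E⁄Ω).a₄ * x + (E⁄Ω).a₆))) (by
    rw [degree_quadratic one_ne_zero]
    norm_num)
  refine ⟨y, (equation_iff_nonsingular_of_Δ_ne_zero hΔ').mp ?_⟩
  rw [equation_iff]
  simp only [IsRoot.def, eval_add, eval_mul, eval_C, eval_pow, eval_X] at hy
  linear_combination hy

/-- Take `y` by `exists_point`, `P = (x, y)`.  By `x_frob_sub`, `Fr P - P = (τ, y')`, so it is `P₀` or `-P₀` (`Y_eq_of_X_eq`).
In the second case replace `P` by `-P = (x, negY x y)`  (`Point.neg_some`, `map_neg`). -/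
theorem exists_mem_fibre [IsAlgClosed Ω] (hΔ : E.Δ ≠ 0) {τ yτ : Ω} (h0 : (E⁄Ω).Nonsingular τ yτ)
    {x : Ω} (hx : x ^ Fintype.card k ≠ x)
    (hnum : aeval x (numP E) = τ * (x ^ Fintype.card k - x) ^ 2) :
    ∃ (y : Ω) (h : (E⁄Ω).Nonsingular x y),
      Fr E Ω (Point.some x y h) - Point.some x y h = Point.some τ yτ h0 := by
  obtain ⟨y, h⟩ := exists_point E hΔ x
  have hd : (x ^ Fintype.card k - x) ^ 2 ≠ 0 := pow_ne_zero 2 (sub_ne_zero.2 hx)
  have hX : aeval x (numP E) / (x ^ Fintype.card k - x) ^ 2 = τ := by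
    rw [hnum, mul_div_assoc, div_self hd, mul_one]
  obtain ⟨y', h', he⟩ : ∃ (y' : Ω) (h' : (E⁄Ω).Nonsingular τ y'),
      Fr E Ω (Point.some x y h) - Point.some x y h = Point.some τ y' h' := by
    have h1 := x_frob_sub E h hx
    rw [hX] at h1
    exact h1
  rcases Y_eq_of_X_eq h'.1 h0.1 rfl with hy | hy
  · subst hy
    exact ⟨y, h, he⟩
  · subst hy
    refine ⟨(E⁄Ω).negY x y, (nonsingular_neg x y).mpr h, ?_⟩
    have h2 : (Point.some x ((E⁄Ω).negY x y) ((nonsingular_neg x y).mpr h) : (E⁄Ω).Point) =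
        - Point.some x y h := (Point.neg_some h).symm
    have h3 : (Point.some τ ((E⁄Ω).negY τ yτ) h' : (E⁄Ω).Point) = - Point.some τ yτ h0 :=
      (Point.neg_some h0).symm
    rw [h2, map_neg, ← neg_sub', he, h3, neg_neg]

end Fermat.Agent.S58.CH.Count
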