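import Fermat.Agent.S58.CH.Count.FibreA
import Fermat.Agent.S58.CH.Count.FibreB

/-!
# S58 / CH / Count : the fibre of `Frob - 1` over a generic point `P₀ = (τ, y_τ)` is in bijection (via `x`) with
`{x | x^q ≠ x, numP(x) = τ (x^q - x)^2}`
-/

set_option autoImplicit false

namespace Fermat.Agent.S58.CH.Count

open Polynomial WeierstrassCurve WeierstrassCurve.Affine

variable {k : Type*} [Field k] [Fintype k] (E : WeierstrassCurve k)
variable {Ω : Type*} [Field Ω] [DecidableEq Ω] [Algebra k Ω]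

omit [DecidableEq Ω] in
theorem pow_card_ne_of_transcendental {τ : Ω} (hτ : Transcendental k τ) :
    τ ^ Fintype.card k ≠ τ := by
  intro h
  apply hτ
  refine ⟨X ^ Fintype.card k - X, FiniteField.X_pow_card_sub_X_ne_zero k Fintype.one_lt_card, ?_⟩
  simp [h]

theorem card_fibre [IsAlgClosed Ω] (hΔ : E.Δ ≠ 0) {τ yτ : Ω} (hτ : Transcendental k τ)
    (h0 : (E⁄Ω).Nonsingular τ yτ) :
    Nat.card {P : (E⁄Ω).Point // Fr E Ω P - P = Point.some τ yτ h0}
      = Nat.card {x : Ω // x ^ Fintype.card k ≠ x ∧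
          aeval x (numP E) = τ * (x ^ Fintype.card k - x) ^ 2} := by
  have hτ' := pow_card_ne_of_transcendental hτ
  let Φ : {P : (E⁄Ω).Point // Fr E Ω P - P = Point.some τ yτ h0} →
      {x : Ω // x ^ Fintype.card k ≠ x ∧
          aeval x (numP E) = τ * (x ^ Fintype.card k - x) ^ 2} := fun P =>
    ⟨(x_of_mem_fibre E hτ' h0 P.2).choose, by
      obtain ⟨y, h, -, h1, h2⟩ := (x_of_mem_fibre E hτ' h0 P.2).choose_spec
      exact ⟨h1, h2⟩⟩
  have hΦ : ∀ P, ∃ (y : Ω) (h : (E⁄Ω).Nonsingular (Φ P).1 y), P.1 = Point.some (Φ P).1 y h := by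
    intro P
    obtain ⟨y, h, h3, -, -⟩ := (x_of_mem_fibre E hτ' h0 P.2).choose_spec
    exact ⟨y, h, h3⟩
  refine Nat.card_congr (Equiv.ofBijective Φ ⟨?_, ?_⟩)
  · intro P P' hPP
    obtain ⟨y, h, hP⟩ := hΦ P
    obtain ⟨y', h', hP'⟩ := hΦ P'
    have hxx : (Φ P).1 = (Φ P').1 := congrArg Subtype.val hPP
    generalize (Φ P).1 = x at h hP hxx
    generalize (Φ P').1 = x' at h' hP' hxx
    subst hxx
    apply Subtype.ext
    rcases Y_eq_of_X_eq h.1 h'.1 rfl with hy | hy
    · rw [hP, hP']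
      subst hy
      rfl
    · exfalso
      have hneg : P.1 = - P'.1 := by
        rw [hP, hP', Point.neg_some]
        subst hy
        rfl
      have e1 := P.2
      have e2 := P'.2
      rw [hneg, map_neg] at e1
      apply two_smul_ne_zero_of_transcendental E hΔ hτ h0
      rw [← e2]
      conv_lhs => rw [e2, ← e1]
      abel
  · rintro ⟨x, hx, hnum⟩
    obtain ⟨y, h, hP⟩ := exists_mem_fibre E hΔ h0 hx hnum
    refine ⟨⟨_, hP⟩, Subtype.ext ?_⟩
    obtain ⟨y', h', hP'⟩ := hΦ ⟨_, hP⟩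
    simp only [Point.some.injEq] at hP'
    exact hP'.1.symm

end Fermat.Agent.S58.CH.Count
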