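import Fermat.Agent.S58.CH.Count.Formula

/-!
# S58 / CH / Count : points of the fibre of `Frob - 1` over a generic point `P₀ = (τ, y_τ)`
-/

set_option autoImplicit false

namespace Fermat.Agent.S58.CH.Count

open Polynomial WeierstrassCurve WeierstrassCurve.Affine

variable {k : Type*} [Field k] [Fintype k] (E : WeierstrassCurve k)
variable {Ω : Type*} [Field Ω] [DecidableEq Ω] [Algebra k Ω]

omit [Fintype k] in
/-- a generic point is not 2-torsion.
`P₀ = -P₀` gives `y = negY τ y`, i.e. `2 y + a₁ τ + a₃ = 0`; squaring and using the equation: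
`4 τ³ + b₂ τ² + 2 b₄ τ + b₆ = 0`.  By transcendence the polynomial `C 4 * X^3 + C b₂ * X^2 + C (2 b₄) * X + C b₆ ∈ k[X]` is zero,
so `4 = 0`, `b₂ = 0`, `2 b₄ = 0`, `b₆ = 0` in `k`, and `Δ = -b₂² b₈ - 8 b₄³ - 27 b₆² + 9 b₂ b₄ b₆ = 0`. -/
theorem two_smul_ne_zero_of_transcendental (hΔ : E.Δ ≠ 0) {τ yτ : Ω} (hτ : Transcendental k τ)
    (h0 : (E⁄Ω).Nonsingular τ yτ) : Point.some τ yτ h0 ≠ - Point.some τ yτ h0 := by
  intro h
  rw [Point.neg_some, Point.some.injEq] at h
  have hy := h.2
  have heq := h0.1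
  rw [equation_iff] at heq
  rw [negY] at hy
  simp only [WeierstrassCurve.baseChange, WeierstrassCurve.map_a₁, WeierstrassCurve.map_a₂,
    WeierstrassCurve.map_a₃, WeierstrassCurve.map_a₄, WeierstrassCurve.map_a₆] at heq hy
  set p : k[X] := C 4 * X ^ 3 + C E.b₂ * X ^ 2 + C (2 * E.b₄) * X + C E.b₆ with hp
  have hp0 : aeval τ p = 0 := by
    simp only [hp, map_add, map_mul, map_pow, aeval_C, aeval_X, WeierstrassCurve.b₂,
      WeierstrassCurve.b₄, WeierstrassCurve.b₆, map_ofNat]
    linear_combination (-4 : Ω) * heq + (2 * yτ + algebraMap k Ω E.a₁ * τ + algebraMap k Ω E.a₃) * hy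
  have hpz : p = 0 := transcendental_iff.1 hτ p hp0
  have c2 : E.b₂ = 0 := by
    have := congrArg (fun r => Polynomial.coeff r 2) hpz
    simpa [hp, coeff_X, coeff_C] using this
  have c1 : 2 * E.b₄ = 0 := by
    have := congrArg (fun r => Polynomial.coeff r 1) hpz
    simpa [hp, coeff_X, coeff_C] using this
  have c0 : E.b₆ = 0 := by
    have := congrArg (fun r => Polynomial.coeff r 0) hpz
    simpa [hp, coeff_X, coeff_C] using this
  apply hΔ
  rw [WeierstrassCurve.Δ, c2, c0]
  linear_combination (-(2 * E.b₄) ^ 2) * c1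

/-- a point of the fibre is affine, with `x ^ q ≠ x`.
`P = 0` is impossible (`Point.some_ne_zero`).  `P = (x, y)` with `x^q = x`: `Fr P = (x^q, y^q)` has the same `x`, so `Fr P = P` or
`Fr P = -P` (`Y_eq_of_X_eq`).  First case: `P₀ = 0`.  Second case: `P₀ = -2P`, `Fr P₀ = -2 Fr P = 2 P = -P₀`, so
`τ^q = τ` (compare `x`-coordinates).  The last assertion is `x_frob_sub` + `Point.some.injEq` + `div_eq_iff`. -/
theorem x_of_mem_fibre {τ yτ : Ω} (hτ : τ ^ Fintype.card k ≠ τ) (h0 : (E⁄Ω).Nonsingular τ yτ)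
    {P : (E⁄Ω).Point} (hP : Fr E Ω P - P = Point.some τ yτ h0) :
    ∃ (x y : Ω) (h : (E⁄Ω).Nonsingular x y), P = Point.some x y h ∧ x ^ Fintype.card k ≠ x ∧
      aeval x (numP E) = τ * (x ^ Fintype.card k - x) ^ 2 := by
  rcases P with _ | ⟨x, y, h⟩
  · exfalso
    have h1 : Fr E Ω (Point.zero : (E⁄Ω).Point) - (Point.zero : (E⁄Ω).Point) = 0 := by
      have : (Point.zero : (E⁄Ω).Point) = 0 := rfl
      rw [this, map_zero, sub_zero]
    rw [h1] at hP
    exact Point.some_ne_zero _ hP.symm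
  · have hφ : ∀ a : Ω, FiniteField.frobeniusAlgHom k Ω a = a ^ Fintype.card k := fun a => rfl
    have hFr : ∀ {a b : Ω} (hab : (E⁄Ω).Nonsingular a b), Fr E Ω (Point.some a b hab)
        = Point.some (FiniteField.frobeniusAlgHom k Ω a) (FiniteField.frobeniusAlgHom k Ω b)
          ((Affine.baseChange_nonsingular E (FiniteField.frobeniusAlgHom k Ω).injective ..).mpr hab) :=
      fun hab => rfl
    have hx : x ^ Fintype.card k ≠ x := by
      intro hx
      have hns := (Affine.baseChange_nonsingular E (FiniteField.frobeniusAlgHom k Ω).injective x y).mpr h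
      rcases Y_eq_of_X_eq hns.1 h.1 ((hφ x).trans hx) with hy | hy
      · have : Fr E Ω (Point.some x y h) = Point.some x y h := by
          rw [hFr h, Point.some.injEq]
          exact ⟨(hφ x).trans hx, hy⟩
        rw [this, sub_self] at hP
        exact Point.some_ne_zero _ hP.symm
      · have h2 : Fr E Ω (Point.some x y h) = - Point.some x y h := by
          rw [hFr h, Point.neg_some, Point.some.injEq]
          exact ⟨(hφ x).trans hx, hy⟩
        have h3 : Fr E Ω (Point.some τ yτ h0) = - Point.some τ yτ h0 := by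
          rw [← hP, map_sub, h2, map_neg, h2]
          abel
        rw [hFr h0, Point.neg_some, Point.some.injEq] at h3
        exact hτ ((hφ τ).symm.trans h3.1)
    refine ⟨x, y, h, rfl, hx, ?_⟩
    obtain ⟨y', h', hy'⟩ := x_frob_sub E h hx
    rw [hP, Point.some.injEq] at hy'
    have hne : (x ^ Fintype.card k - x) ^ 2 ≠ 0 := pow_ne_zero 2 (sub_ne_zero.2 hx)
    exact (div_eq_iff hne).1 hy'.1.symm

end Fermat.Agent.S58.CH.Count
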