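import Fermat.Agent.S58.CH.Count.Defs

/-!
# S58 / CH / Count : the fixed points of Frobenius are the `k`-points
-/

set_option autoImplicit false

namespace Fermat.Agent.S58.CH.Count

open Polynomial WeierstrassCurve WeierstrassCurve.Affine

variable {k : Type*} [Field k] [Fintype k] (E : WeierstrassCurve k)

omit E in
theorem Fix_prod_X_sub_C : ∏ c : k, (X - C c) = (X ^ Fintype.card k - X : k[X]) := by
  have hdeg : (X ^ Fintype.card k - X : k[X]).natDegree = Fintype.card k :=
    FiniteField.X_pow_card_sub_X_natDegree_eq _ Fintype.one_lt_card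
  have hmonic : (X ^ Fintype.card k - X : k[X]).Monic := by
    apply monic_X_pow_sub
    rw [degree_X]
    exact_mod_cast Fintype.one_lt_card
  have h := prod_multiset_X_sub_C_of_monic_of_roots_card_eq hmonic
    (by rw [FiniteField.roots_X_pow_card_sub_X, hdeg]; simp)
  rw [FiniteField.roots_X_pow_card_sub_X] at h
  exact h

theorem Fix_some_eq {R : Type*} [CommRing R] {W : Affine R} {x x' y y' : R}
    (h : W.Nonsingular x y) (h' : W.Nonsingular x' y') (hx : x = x') (hy : y = y') :
    Point.some x y h = Point.some x' y' h' := by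
  subst hx hy
  rfl

/-- `X^q - X = ∏_{c ∈ k} (X - c)` in `k[X]` (proof: `S52.CH.manin_prod_X_sub_C`, S52/CH/Manin.lean, copy it); apply `aeval x`. -/
theorem exists_algebraMap_of_pow_card_eq {Ω : Type*} [Field Ω] [Algebra k Ω] {x : Ω}
    (hx : x ^ Fintype.card k = x) : ∃ c : k, algebraMap k Ω c = x := by
  have h := congrArg (aeval x) (Fix_prod_X_sub_C (k := k))
  rw [map_prod] at h
  simp only [map_sub, aeval_X, aeval_C, map_pow] at h
  rw [hx, sub_self] at h
  obtain ⟨c, -, hc⟩ := Finset.prod_eq_zero_iff.1 h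
  exact ⟨c, (sub_eq_zero.1 hc).symm⟩

/-- the map `E(k) → E(Ω)`, `0 ↦ 0`, `(x, y) ↦ (algebraMap x, algebraMap y)` (`WeierstrassCurve.Affine.map_nonsingular` /
`baseChange_nonsingular`; `E⁄Ω = E.map (algebraMap k Ω)`) is injective with image the fixed points of `Fr`
(`Fr E Ω (some x y h) = some (x^q) (y^q) _` by `Point.map_some`).  `Nat.card_congr (Equiv.ofBijective ..)`. -/
theorem card_fixed {Ω : Type*} [Field Ω] [DecidableEq Ω] [Algebra k Ω] :
    Nat.card {P : (E⁄Ω).Point // Fr E Ω P = P} = Nat.card E.toAffine.Point := by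
  classical
  symm
  have hφ : Function.Injective (algebraMap k Ω) := (algebraMap k Ω).injective
  have hFr : ∀ (x y : Ω) (h : (E⁄Ω).Nonsingular x y), ∃ h', Fr E Ω (Point.some x y h) =
      Point.some (x ^ Fintype.card k) (y ^ Fintype.card k) h' := fun x y h => ⟨_, rfl⟩
  have hns : ∀ x y : k, (E⁄Ω).Nonsingular (algebraMap k Ω x) (algebraMap k Ω y) ↔
      E.toAffine.Nonsingular x y := fun x y => E.toAffine.map_nonsingular hφ x y
  have hpow : ∀ x : k, algebraMap k Ω x ^ Fintype.card k = algebraMap k Ω x := fun x => by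
    rw [← map_pow, FiniteField.pow_card]
  let ι : E.toAffine.Point → {P : (E⁄Ω).Point // Fr E Ω P = P} := fun P =>
    match P with
    | .zero => ⟨0, map_zero _⟩
    | .some x y h => ⟨.some (algebraMap k Ω x) (algebraMap k Ω y) ((hns x y).2 h), by
        obtain ⟨h', e⟩ := hFr _ _ ((hns x y).2 h)
        rw [e]
        exact Fix_some_eq _ _ (hpow x) (hpow y)⟩
  refine Nat.card_congr (Equiv.ofBijective ι ⟨?_, ?_⟩)
  · rintro (_ | ⟨x, y, h⟩) (_ | ⟨x', y', h'⟩) e
    · rfl
    · exact absurd (congrArg Subtype.val e) (by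
        change (Point.zero : (E⁄Ω).Point) ≠ Point.some _ _ _
        exact fun h => by cases h)
    · exact absurd (congrArg Subtype.val e) (by
        change Point.some _ _ _ ≠ (Point.zero : (E⁄Ω).Point)
        exact fun h => by cases h)
    · have e' : (Point.some (algebraMap k Ω x) (algebraMap k Ω y) ((hns x y).2 h) : (E⁄Ω).Point) =
          Point.some (algebraMap k Ω x') (algebraMap k Ω y') ((hns x' y').2 h') :=
        congrArg Subtype.val e
      have e'' := Point.some.inj e'
      exact Fix_some_eq _ _ (hφ e''.1) (hφ e''.2)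
  · rintro ⟨(_ | ⟨x, y, h⟩), hP⟩
    · exact ⟨.zero, rfl⟩
    · obtain ⟨h', e⟩ := hFr x y h
      rw [e] at hP
      have e'' := Point.some.inj hP
      obtain ⟨a, rfl⟩ := exists_algebraMap_of_pow_card_eq e''.1
      obtain ⟨b, rfl⟩ := exists_algebraMap_of_pow_card_eq e''.2
      exact ⟨.some a b ((hns a b).1 h), rfl⟩

end Fermat.Agent.S58.CH.Count
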