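import Fermat.Agent.S58.CH.Count.Defs

/-!
# S58 / CH / Count : the formula `x (Frob P - P) = numP(x) / (x^q - x)^2`
-/

set_option autoImplicit false

namespace Fermat.Agent.S58.CH.Count

open Polynomial WeierstrassCurve WeierstrassCurve.Affine

variable {k : Type*} [Field k] (E : WeierstrassCurve k)

theorem aeval_fP {L : Type*} [CommRing L] [Algebra k L] (x : L) :
    aeval x (fP E) = x ^ 3 + algebraMap k L E.a₂ * x ^ 2 + algebraMap k L E.a₄ * x
      + algebraMap k L E.a₆ := by
  simp [fP]

theorem aeval_gP {L : Type*} [CommRing L] [Algebra k L] (x : L) :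
    aeval x (gP E) = algebraMap k L E.a₁ * x + algebraMap k L E.a₃ := by
  simp [gP]

/-- `t_n (x) = y ^ n + ȳ ^ n`.
Two-step induction (`Nat.twoStepInduction` or `induction n using Nat.strong_induction_on`):  `y + ȳ = - g(x)`,
`y ȳ = - f(x)` (the equation, `equation_iff`; the coefficients of `E⁄L` are `algebraMap k L E.aᵢ` by `simp`/`rfl`), so
`y^(n+2) + ȳ^(n+2) = (y + ȳ)(y^(n+1) + ȳ^(n+1)) - y ȳ (y^n + ȳ^n)` (`linear_combination`). -/
theorem aeval_trP {L : Type*} [Field L] [Algebra k L] {x y : L} (h : (E⁄L).Equation x y) (n : ℕ) :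
    aeval x (trP E n) = y ^ n + ((E⁄L).negY x y) ^ n := by
  have heq : y ^ 2 + algebraMap k L E.a₁ * x * y + algebraMap k L E.a₃ * y
      = x ^ 3 + algebraMap k L E.a₂ * x ^ 2 + algebraMap k L E.a₄ * x + algebraMap k L E.a₆ := by
    have := (equation_iff _ _).1 h
    simpa using this
  have hyb : (E⁄L).negY x y = -y - algebraMap k L E.a₁ * x - algebraMap k L E.a₃ := by
    simp [negY]
  have hs : y + (E⁄L).negY x y = -(algebraMap k L E.a₁ * x + algebraMap k L E.a₃) := by
    rw [hyb]; ring
  have hp : y * (E⁄L).negY x y = -(x ^ 3 + algebraMap k L E.a₂ * x ^ 2 + algebraMap k L E.a₄ * x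
      + algebraMap k L E.a₆) := by
    rw [hyb]; linear_combination -heq
  generalize (E⁄L).negY x y = yb at hs hp ⊢
  induction n using Nat.twoStepInduction with
  | zero =>
    rw [trP, pow_zero, pow_zero]
    simp only [map_ofNat]
    norm_num
  | one =>
    rw [trP, map_neg, aeval_gP, pow_one, pow_one, hs]
  | more n ih1 ih2 =>
    rw [trP, map_add, map_mul, map_mul, map_neg, ih1, ih2, aeval_gP, aeval_fP]
    linear_combination (-(y ^ (n + 1) + yb ^ (n + 1))) * hs + (y ^ n + yb ^ n) * hp

theorem Formula_exists_some {L : Type*} [Field L] (W : Affine L) {a a' b : L}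
    (hab : W.Nonsingular a b) (e : a = a') :
    ∃ (y' : L) (h' : W.Nonsingular a' y'), Point.some a b hab = Point.some a' y' h' := by
  subst e
  exact ⟨b, hab, rfl⟩

/-- **(A)** the `x`-coordinate of `Frob P - P`.
Model: `S52.CH.HasD_Fr_eta_sub` (S52/CH/Frob.lean):
`rw [sub_eq_add_neg, Fr, Point.map_some, Point.neg_some, Point.add_of_X_ne hx']`, then `⟨_, _, rfl⟩`-style after rewriting the
`x`-coordinate (use `Point.some.injEq` / `congr`, or first prove the equality of `x`-coordinates `hX` and `subst`/`▸`).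
`addX = λ² + a₁ λ - a₂ - x^q - x`, `λ = (y^q - ȳ) / (x^q - x)` (`slope_of_X_ne`), `ȳ = negY x y = - y - a₁ x - a₃`.
Put `X' = x^q`, `Y = y^q`, `φ = frobeniusAlgHom` (an algebra hom!), so `φ ȳ = - Y - a₁ X' - a₃`,
`f(x)^q = φ (f(x)) = X'^3 + a₂ X'^2 + a₄ X' + a₆`, and `(X', Y)` satisfies the equation too.
`aeval x (trP E (q+1)) = y * Y + ȳ * φ ȳ` by `aeval_trP`.  Then
`(Y - ȳ)² + a₁ (Y - ȳ)(X' - x) = f(X') + f(x) + y Y + ȳ φ(ȳ)` is `linear_combination` of the two equations. -/
theorem x_frob_sub [Fintype k] {L : Type*} [Field L] [DecidableEq L] [Algebra k L] {x y : L}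
    (h : (E⁄L).Nonsingular x y) (hx : x ^ Fintype.card k ≠ x) :
    ∃ (y' : L) (h' : (E⁄L).Nonsingular
        (aeval x (numP E) / (x ^ Fintype.card k - x) ^ 2) y'),
      Fr E L (Point.some x y h) - Point.some x y h = Point.some _ y' h' := by
  have hφa : ∀ z : L, FiniteField.frobeniusAlgHom k L z = z ^ Fintype.card k := fun z => rfl
  have hx' : FiniteField.frobeniusAlgHom k L x ≠ x := by rw [hφa]; exact hx
  have heq : y ^ 2 + algebraMap k L E.a₁ * x * y + algebraMap k L E.a₃ * y
      = x ^ 3 + algebraMap k L E.a₂ * x ^ 2 + algebraMap k L E.a₄ * x + algebraMap k L E.a₆ := by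
    have := (equation_iff _ _).1 h.1
    simpa using this
  have heq' := congrArg (FiniteField.frobeniusAlgHom k L) heq
  simp only [map_add, map_mul, map_pow, AlgHom.commutes] at heq'
  have hf : aeval x (fP E) ^ Fintype.card k
      = aeval (FiniteField.frobeniusAlgHom k L x) (fP E) := by
    rw [← hφa, Polynomial.aeval_algHom_apply]
  have hyb : (E⁄L).negY x y = -y - algebraMap k L E.a₁ * x - algebraMap k L E.a₃ := by
    simp [negY]
  have hybq : ((E⁄L).negY x y) ^ Fintype.card k = -FiniteField.frobeniusAlgHom k L y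
      - algebraMap k L E.a₁ * FiniteField.frobeniusAlgHom k L x - algebraMap k L E.a₃ := by
    rw [← hφa, hyb]
    simp only [map_sub, map_neg, map_mul, AlgHom.commutes]
  have ht := aeval_trP E h.1 (Fintype.card k + 1)
  rw [pow_succ, pow_succ, hybq, ← hφa, hyb] at ht
  have hD : FiniteField.frobeniusAlgHom k L x - x ≠ 0 := sub_ne_zero.2 hx'
  rw [show Fr E L (Point.some x y h) - Point.some x y h
      = Fr E L (Point.some x y h) + -Point.some x y h from sub_eq_add_neg _ _,
    Fr, Point.map_some, Point.neg_some, Point.add_of_X_ne (by exact hx')]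
  apply Formula_exists_some
  rw [slope_of_X_ne (by exact hx'), hyb]
  have a1 : (E⁄L).a₁ = algebraMap k L E.a₁ := by simp
  have a2 : (E⁄L).a₂ = algebraMap k L E.a₂ := by simp
  simp only [addX]
  rw [a1, a2, numP]
  simp only [map_sub, map_add, map_mul, map_pow, aeval_C, aeval_X]
  rw [hf, ht, aeval_fP, aeval_fP, ← hφa]
  generalize FiniteField.frobeniusAlgHom k L x = X' at *
  generalize FiniteField.frobeniusAlgHom k L y = Y at *
  field_simp
  linear_combination heq' + heq

end Fermat.Agent.S58.CH.Count
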