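import Mathlib

/-!
# S58 / CH / Count : a rational function `v0 / v1` with `deg v0 = deg v1 + 1` is separable:
the generic fibre has `deg v0` elements.
-/

set_option autoImplicit false

namespace Fermat.Agent.S58.CH.Count

open Polynomial

variable {k : Type*} [Field k]

/-- With `d = deg v1`: the coefficient of `X ^ (2 d)` of the Wronskian is `((d+1) - d) * lc v0 * lc v1 ≠ 0`
(`coeff_mul_add_eq_of_natDegree_le`, `natDegree_derivative_le`, `coeff_derivative`; case `d = 0`: `v1` is constant,
`derivative v1 = 0`). -/
theorem wronskian_ne_zero {v0 v1 : k[X]} (hdeg : v0.natDegree = v1.natDegree + 1) (h1 : v1 ≠ 0) :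
    derivative v0 * v1 - v0 * derivative v1 ≠ 0 := by
  intro h
  set d := v1.natDegree with hd
  have h0 : v0 ≠ 0 := by
    rintro rfl
    rw [natDegree_zero] at hdeg
    omega
  have hc := congrArg (fun p => p.coeff (d + d)) h
  simp only [coeff_sub, coeff_zero] at hc
  have e1 : (derivative v0 * v1).coeff (d + d)
      = (v0.coeff (d + 1) * ((d : k) + 1)) * v1.coeff d := by
    rw [coeff_mul_add_eq_of_natDegree_le (by have := natDegree_derivative_le v0; omega) hd.ge,
      coeff_derivative]
  have e2 : (v0 * derivative v1).coeff (d + d) = v0.coeff (d + 1) * (v1.coeff d * (d : k)) := by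
    rcases Nat.eq_zero_or_pos d with hd0 | hd0
    · have h2 : derivative v1 = 0 := derivative_of_natDegree_zero (hd.symm.trans hd0)
      rw [h2, mul_zero, coeff_zero, hd0, Nat.cast_zero, mul_zero, mul_zero]
    · obtain ⟨e, he⟩ : ∃ e, d = e + 1 := ⟨d - 1, by omega⟩
      have h3 : d + d = (d + 1) + e := by omega
      rw [h3, coeff_mul_add_eq_of_natDegree_le hdeg.le
        (by have := natDegree_derivative_le v1; omega), coeff_derivative, ← he, he]
      push_cast
      rfl
  rw [e1, e2] at hc
  have h4 : v0.coeff (d + 1) * v1.coeff d = 0 := by linear_combination hc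
  rw [← hdeg, coeff_natDegree, hd, coeff_natDegree] at h4
  exact mul_ne_zero (leadingCoeff_ne_zero.2 h0) (leadingCoeff_ne_zero.2 h1) h4

/-- `H := map v0 - C τ * map v1 ∈ Ω[X]` has degree `deg v0` and is separable: at a common root `x` of `H`, `H'` the
Wronskian (a nonzero polynomial over `k`) vanishes, so `x` is algebraic over `k`; `v1(x) ≠ 0` by coprimality, so
`τ = v0(x) / v1(x)` is algebraic: contradiction.  Models: `S41.G.torsCard_exists_separable`, `torsCard_natDegree_sub`,
`torsCard_card_roots` in S41/G/TorsCard.lean (copy the proofs, do not import).  Finally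
`Nat.card {x // H.IsRoot x} = H.roots.toFinset.card`. -/
theorem card_roots_generic {Ω : Type*} [Field Ω] [Algebra k Ω] [IsAlgClosed Ω] {v0 v1 : k[X]}
    (hcop : IsCoprime v0 v1) (hdeg : v0.natDegree = v1.natDegree + 1) (h1 : v1 ≠ 0) {τ : Ω}
    (hτ : Transcendental k τ) :
    Nat.card {x : Ω // aeval x v0 = τ * aeval x v1} = v0.natDegree := by
  classical
  set F : Polynomial Ω := v0.map (algebraMap k Ω) with hF
  set G : Polynomial Ω := v1.map (algebraMap k Ω) with hG
  set H : Polynomial Ω := F - C τ * G with hH
  have hinj : Function.Injective (algebraMap k Ω) := (algebraMap k Ω).injective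
  have hdF : F.natDegree = v0.natDegree := natDegree_map_eq_of_injective hinj v0
  have hdG : G.natDegree = v1.natDegree := natDegree_map_eq_of_injective hinj v1
  have hdH : H.natDegree = v0.natDegree := by
    rw [← hdF]
    apply natDegree_sub_eq_left_of_natDegree_lt
    refine lt_of_le_of_lt (natDegree_C_mul_le _ _) ?_
    rw [hdF, hdG, hdeg]
    exact Nat.lt_succ_self _
  have hH0 : H ≠ 0 := by
    intro h
    rw [h, natDegree_zero] at hdH
    omega
  have hWr0 := wronskian_ne_zero hdeg h1
  have evF : ∀ x : Ω, F.eval x = aeval x v0 := fun x => by rw [hF, eval_map_algebraMap]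
  have evG : ∀ x : Ω, G.eval x = aeval x v1 := fun x => by rw [hG, eval_map_algebraMap]
  have evF' : ∀ x : Ω, (derivative F).eval x = aeval x (derivative v0) := fun x => by
    rw [hF, derivative_map, eval_map_algebraMap]
  have evG' : ∀ x : Ω, (derivative G).eval x = aeval x (derivative v1) := fun x => by
    rw [hG, derivative_map, eval_map_algebraMap]
  have hsep : H.Separable := by
    rw [separable_def, isCoprime_iff_aeval_ne_zero_of_isAlgClosed Ω Ω]
    intro a
    by_contra hcon
    rw [not_or, not_not, not_not] at hcon
    obtain ⟨c1, c2⟩ := hcon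
    simp only [hH, coe_aeval_eq_eval, derivative_sub, derivative_mul, derivative_C, zero_mul,
      zero_add, eval_sub, eval_mul, eval_C, evF, evG, evF', evG'] at c1 c2
    -- `a` is algebraic over `k`
    have halg : IsAlgebraic k a := by
      refine ⟨_, hWr0, ?_⟩
      rw [map_sub, map_mul, map_mul]
      linear_combination (aeval a v1) * c2 - (aeval a (derivative v1)) * c1
    have hv1 : aeval a v1 ≠ 0 := by
      intro hz
      rw [hz, mul_zero, sub_zero] at c1
      obtain ⟨r, t, hrt⟩ := hcop
      have := congrArg (aeval a) hrt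
      rw [map_add, map_mul, map_mul, c1, hz, mul_zero, mul_zero, add_zero, map_one] at this
      exact zero_ne_one this
    have hτa : τ = aeval a v0 / aeval a v1 := by
      rw [eq_div_iff hv1]
      linear_combination -c1
    apply hτ
    rw [hτa]
    have ha : a ∈ algebraicClosure k Ω := mem_algebraicClosure_iff.2 halg
    have hA : ∀ p : k[X], aeval a p ∈ algebraicClosure k Ω := fun p => by
      have h5 := (aeval (⟨a, ha⟩ : algebraicClosure k Ω) p).2
      rwa [← IntermediateField.aeval_coe] at h5
    exact mem_algebraicClosure_iff.1 (div_mem (hA v0) (hA v1))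
  have hset : ∀ x : Ω, (aeval x v0 = τ * aeval x v1) ↔ x ∈ H.roots.toFinset := by
    intro x
    rw [Multiset.mem_toFinset, mem_roots hH0, IsRoot.def, hH, eval_sub, eval_mul, eval_C, evF, evG,
      sub_eq_zero]
  rw [Nat.card_congr (Equiv.subtypeEquivRight hset), Nat.card_eq_fintype_card, Fintype.card_coe,
    Multiset.toFinset_card_of_nodup (nodup_roots hsep), ← hdH]
  exact splits_iff_card_roots.1 (IsAlgClosed.splits H)

end Fermat.Agent.S58.CH.Count
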