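import Fermat.Agent.S58.CH.Count.Fibre
import Fermat.Agent.S58.CH.Count.Fix
import Fermat.Agent.S58.CH.Count.Sep
import Fermat.Agent.S58.CH.Count.Deg
import Fermat.Agent.S52.CH.Height

/-!
# S58 / CH / Count : `deg x (Frob η - η) = # E(k)`
-/

set_option autoImplicit false

namespace Fermat.Agent.S58.CH.Count

open Polynomial WeierstrassCurve WeierstrassCurve.Affine

variable {k : Type*} [Field k] [Fintype k] (E : WeierstrassCurve k)

/-- lowest terms. -/
theorem exists_lowest_terms : ∃ g v0 v1 : k[X], g ≠ 0 ∧ v1 ≠ 0 ∧ numP E = g * v0 ∧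
    (X ^ Fintype.card k - X : k[X]) ^ 2 = g * v1 ∧ IsCoprime v0 v1 ∧
    v0.natDegree = v1.natDegree + 1 := by
  classical
  have hD0 : (X ^ Fintype.card k - X : k[X]) ≠ 0 :=
    FiniteField.X_pow_card_sub_X_ne_zero k Fintype.one_lt_card
  have hD2 : (X ^ Fintype.card k - X : k[X]) ^ 2 ≠ 0 := pow_ne_zero 2 hD0
  have hdegD : ((X ^ Fintype.card k - X : k[X]) ^ 2).natDegree = 2 * Fintype.card k := by
    rw [natDegree_pow, FiniteField.X_pow_card_sub_X_natDegree_eq _ Fintype.one_lt_card]
  have hdegN := natDegree_numP E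
  set N := numP E with hN
  set D2 := (X ^ Fintype.card k - X : k[X]) ^ 2 with hD2def
  obtain ⟨v0, hv0⟩ := EuclideanDomain.gcd_dvd_left N D2
  obtain ⟨v1, hv1⟩ := EuclideanDomain.gcd_dvd_right N D2
  have hbez := EuclideanDomain.gcd_eq_gcd_ab N D2
  set g := EuclideanDomain.gcd N D2 with hg
  have hg0 : g ≠ 0 := by
    rintro h0
    rw [h0, zero_mul] at hv1
    exact hD2 hv1
  have hv10 : v1 ≠ 0 := by
    rintro rfl
    rw [mul_zero] at hv1
    exact hD2 hv1
  have hv00 : v0 ≠ 0 := by
    rintro rfl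
    rw [mul_zero] at hv0
    rw [hv0, natDegree_zero] at hdegN
    omega
  refine ⟨g, v0, v1, hg0, hv10, hv0, hv1, ?_, ?_⟩
  · refine ⟨EuclideanDomain.gcdA N D2, EuclideanDomain.gcdB N D2, ?_⟩
    apply mul_left_cancel₀ hg0
    calc g * (EuclideanDomain.gcdA N D2 * v0 + EuclideanDomain.gcdB N D2 * v1)
        = (g * v0) * EuclideanDomain.gcdA N D2 + (g * v1) * EuclideanDomain.gcdB N D2 := by ring
      _ = g * 1 := by rw [← hv0, ← hv1, ← hbez, mul_one]
  · rw [hv0, natDegree_mul hg0 hv00] at hdegN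
    rw [hv1, natDegree_mul hg0 hv10] at hdegD
    omega

/-- a nonempty fibre of `Frob - 1` has as many elements as the kernel. -/
theorem card_fibre_eq_card_fixed {Ω : Type*} [Field Ω] [DecidableEq Ω] [Algebra k Ω]
    (P₀ P₁ : (E⁄Ω).Point) (h : Fr E Ω P₁ - P₁ = P₀) :
    Nat.card {P : (E⁄Ω).Point // Fr E Ω P - P = P₀} = Nat.card {P : (E⁄Ω).Point // Fr E Ω P = P} := by
  refine Nat.card_congr
    { toFun := fun P => ⟨P.1 - P₁, ?_⟩
      invFun := fun P => ⟨P.1 + P₁, ?_⟩
      left_inv := fun P => Subtype.ext (by simp)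
      right_inv := fun P => Subtype.ext (by simp) }
  · have h1 : Fr E Ω P.1 - P.1 = Fr E Ω P₁ - P₁ := P.2.trans h.symm
    rw [sub_eq_sub_iff_add_eq_add] at h1
    rw [map_sub, sub_eq_sub_iff_add_eq_add, h1, add_comm]
  · have h1 : Fr E Ω P.1 = P.1 := P.2
    rw [map_add, h1, ← h]
    abel

/-- the two descriptions of the set of solutions. -/
theorem card_sol_eq {Ω : Type*} [Field Ω] [Algebra k Ω] {g v0 v1 : k[X]}
    (hnum : numP E = g * v0) (hden : (X ^ Fintype.card k - X : k[X]) ^ 2 = g * v1)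
    (hcop : IsCoprime v0 v1) {τ : Ω} (hτ : Transcendental k τ) :
    Nat.card {x : Ω // x ^ Fintype.card k ≠ x ∧
          aeval x (numP E) = τ * (x ^ Fintype.card k - x) ^ 2}
      = Nat.card {x : Ω // aeval x v0 = τ * aeval x v1} := by
  have hden' : ∀ x : Ω, (x ^ Fintype.card k - x) ^ 2 = aeval x g * aeval x v1 := by
    intro x
    have := congrArg (aeval x) hden
    simpa using this
  have hnum' : ∀ x : Ω, aeval x (numP E) = aeval x g * aeval x v0 := by
    intro x
    rw [hnum, map_mul]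
  refine Nat.card_congr (Equiv.subtypeEquivRight fun x => ⟨?_, ?_⟩)
  · rintro ⟨hx, h⟩
    have hg : aeval x g ≠ 0 := by
      intro h0
      have := hden' x
      rw [h0, zero_mul] at this
      exact hx (sub_eq_zero.1 (pow_eq_zero_iff (two_ne_zero)|>.1 this))
    rw [hnum', hden'] at h
    apply mul_left_cancel₀ hg
    rw [h]; ring
  · intro h
    refine ⟨?_, ?_⟩
    · intro hx
      have halg : IsAlgebraic k x := by
        refine ⟨X ^ Fintype.card k - X,
          FiniteField.X_pow_card_sub_X_ne_zero k Fintype.one_lt_card, ?_⟩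
        simp [hx]
      by_cases hv1 : aeval x v1 = 0
      · rw [hv1, mul_zero] at h
        obtain ⟨a, b, hab⟩ := hcop
        have := congrArg (aeval x) hab
        simp [h, hv1] at this
      · apply hτ
        have : τ = aeval x v0 / aeval x v1 := by
          rw [h, mul_div_assoc, div_self hv1, mul_one]
        rw [this]
        have hx' : x ∈ algebraicClosure k Ω := mem_algebraicClosure_iff.2 halg
        have hsub : ∀ p : k[X], aeval x p ∈ algebraicClosure k Ω := fun p => by
          rw [aeval_eq_sum_range]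
          exact sum_mem fun i _ => (algebraicClosure k Ω).smul_mem (pow_mem hx' i)
        exact mem_algebraicClosure_iff.1 (div_mem (hsub v0) (hsub v1))
    · rw [hnum', hden', h]; ring

/-- **(B)** the count. -/
theorem count (hΔ : E.Δ ≠ 0) :
    S52.CH.Ht ![algebraMap k[X] (RatFunc k) (numP E)
        / ((RatFunc.X : RatFunc k) ^ Fintype.card k - RatFunc.X) ^ 2, 1]
      (Nat.card E.toAffine.Point) := by
  classical
  obtain ⟨g, v0, v1, hg, hv1, hnum, hden, hcop, hdeg⟩ := exists_lowest_terms E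
  -- the count
  let Ω := AlgebraicClosure (RatFunc k)
  let τ : Ω := algebraMap (RatFunc k) Ω RatFunc.X
  have hτ : Transcendental k τ :=
    (transcendental_algebraMap_iff (algebraMap (RatFunc k) Ω).injective).2 RatFunc.transcendental_X
  obtain ⟨yτ, h0⟩ := exists_point E (Ω := Ω) hΔ τ
  have c1 := card_roots_generic hcop hdeg hv1 hτ
  have c2 := card_sol_eq E hnum hden hcop hτ
  have c3 := card_fibre E hΔ hτ h0
  have hne : Nonempty {x : Ω // x ^ Fintype.card k ≠ x ∧
          aeval x (numP E) = τ * (x ^ Fintype.card k - x) ^ 2} := by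
    have : 0 < Nat.card {x : Ω // x ^ Fintype.card k ≠ x ∧
          aeval x (numP E) = τ * (x ^ Fintype.card k - x) ^ 2} := by
      rw [c2, c1, hdeg]; omega
    exact (Nat.card_pos_iff.1 this).1
  obtain ⟨x, hx, hxn⟩ := hne
  obtain ⟨y, h, hP⟩ := exists_mem_fibre E hΔ h0 hx hxn
  have c4 := card_fibre_eq_card_fixed E _ _ hP
  have c5 := card_fixed E (Ω := Ω)
  have hcard : Nat.card E.toAffine.Point = v0.natDegree := by
    rw [← c5, ← c4, c3, c2, c1]
  rw [hcard]
  -- the height
  have hH := S52.CH.Ht_of_poly hcop (le_refl v0.natDegree) (by omega) (Or.inl (by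
    rw [coeff_natDegree, leadingCoeff_ne_zero]
    rintro rfl
    rw [natDegree_zero] at hdeg
    omega))
  have hv1' : algebraMap k[X] (RatFunc k) v1 ≠ 0 := RatFunc.algebraMap_ne_zero hv1
  have hg' : algebraMap k[X] (RatFunc k) g ≠ 0 := RatFunc.algebraMap_ne_zero hg
  have := hH.smul (inv_ne_zero hv1')
  convert this using 1
  have hden' := congrArg (algebraMap k[X] (RatFunc k)) hden
  simp only [map_sub, map_mul, map_pow, RatFunc.algebraMap_X] at hden'
  funext i
  fin_cases i
  · simp only [Fin.zero_eta, Matrix.cons_val_zero, Pi.smul_apply, smul_eq_mul]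
    rw [hden', hnum, map_mul]
    field_simp
  · simp [hv1']

end Fermat.Agent.S58.CH.Count
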